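/-
MLT / L1 (helper3), part 1: **sub-contracts of the stream [L1] and the top-level reduction**

  `mltl1_main : MltL1Mazur p → MltL1Ihara p → MltL1At p`

(the analogue of `ihw_main` of `Lib/Ihara/W/Top.lean` for a general semistable `W`).

* `MltL1Unram W p q`  : `W[p]` is unramified at `q` (pointwise form, the Prelude's `GaloisRepUnramifiedAt`);
* `MltL1FrobScalar W p q` : every Frobenius element at `q` acts on `W[p]` as a scalar;
* `MltL1CPrime W p q` : `q` is a prime of type (C): `q ≠ p`, `q ≡ 1 mod p`, unramified, scalar Frobenius;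
* `MltL1Mazur p` = (A)+(B): the `q`-old case and Mazur's principle: `q ∤ M`, `M q` squarefree, `q ≠ p`,
  `W[p]` unramified at `q`, `q` not of type (C): level `M q` ⟹ level `M`;
* `MltL1Ihara p` = (C): a squarefree level which is minimal among its divisors and all of whose
  unramified primes `≠ p` are of type (C) has no unramified prime `≠ p`.

Proof of `mltl1_main`: take `M₀ ∣ M` minimal among the levels of `W[p]` dividing `M`.  If `q ∤ M₀` then
`M₀ ∣ M / q` and the level is raised back to `M / q` by oldforms (`mltl1_raise`, from `s58v_raise`).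
If `q ∣ M₀`: by (A)+(B) and minimality every unramified prime `≠ p` of `M₀` is of type (C), and (C) gives
the contradiction.
-/
import Mathlib
import Fermat.Agent.Lib.MLT.Contracts.L1
import Fermat.Agent.Lib.S58.Stabilise
import Fermat.Prelude.Def_FLTPrelim_Ramification

set_option autoImplicit false
set_option linter.unusedVariables false

open WeierstrassCurve WeierstrassCurve.Affine WeierstrassCurve.Affine.Point

namespace Fermat.Agent.MLT

local notation "Qb" => AlgebraicClosure ℚ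
local notation "GQ" => (AlgebraicClosure ℚ ≃ₐ[ℚ] AlgebraicClosure ℚ)

/-- `W[p]` is unramified at `q` (pointwise form) -/
def MltL1Unram (W : WeierstrassCurve ℤ) (p q : ℕ) : Prop :=
  GaloisRepUnramifiedAt (K := Qb) ℚ (W.map (Int.castRingHom ℚ)).toAffine p q

/-- every Frobenius element at `q` acts on `W[p]` as a scalar -/
def MltL1FrobScalar (W : WeierstrassCurve ℤ) (p q : ℕ) : Prop :=
  ∀ A : ValuationSubring Qb, A.LiesOverPrime q → ∀ φ : GQ, A.IsFrobeniusAt φ q →
    ∃ c : ℤ, ∀ x : Submodule.torsionBy ℤ ((W.map (Int.castRingHom ℚ)).toAffine⁄Qb).Point p,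
      φ • x = c • x

/-- `q` is a prime of type **(C)** for `W[p]` -/
structure MltL1CPrime (W : WeierstrassCurve ℤ) (p q : ℕ) : Prop where
  prime : q.Prime
  ne_p : q ≠ p
  one_mod : p ∣ q - 1
  unram : MltL1Unram W p q
  scalar : MltL1FrobScalar W p q

/-- **(A)+(B)**: the `q`-old case and Mazur's principle for a general semistable `W` -/
def MltL1Mazur (p : ℕ) [Fact p.Prime] : Prop :=
  ∀ (W : WeierstrassCurve ℤ), W.Δ ≠ 0 → W.IsSemistableModel → W.ModRepIsIrreducible p →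
    ∀ (M q : ℕ), 0 < M → Squarefree (M * q) → q.Prime → q ≠ p → ¬ q ∣ M →
      MltL1Unram W p q → ¬ (p ∣ q - 1 ∧ MltL1FrobScalar W p q) →
      W.IsResiduallyModularOfLevel p (M * q) → W.IsResiduallyModularOfLevel p M

/-- **(C)**: a minimal squarefree level of `W[p]` all of whose unramified primes `≠ p` are of type (C)
has no unramified prime `≠ p` -/
def MltL1Ihara (p : ℕ) [Fact p.Prime] : Prop :=
  ∀ (W : WeierstrassCurve ℤ), W.Δ ≠ 0 → W.IsSemistableModel → W.ModRepIsIrreducible p →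
    ∀ (N : ℕ), 0 < N → Squarefree N → W.IsResiduallyModularOfLevel p N →
      (∀ M : ℕ, M ∣ N → M ≠ N → ¬ W.IsResiduallyModularOfLevel p M) →
      (∀ r : ℕ, r.Prime → r ∣ N → r ≠ p → MltL1Unram W p r → MltL1CPrime W p r) →
      ∀ q : ℕ, q.Prime → q ∣ N → q ≠ p → MltL1Unram W p q → False

/-- the unramifiedness of the Prelude's `residualGaloisRepOf` in pointwise form -/
theorem mltl1_unram_of_residual (W : WeierstrassCurve ℤ) (p : ℕ) [Fact p.Prime]
    (hcard₁ : Nat.card (Submodule.torsionBy ℤ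
      ((W.map (Int.castRingHom ℚ))⁄(AlgebraicClosure ℚ)).Point p) = p ^ 2)
    (hker : GaloisFactorsThroughFiniteLevel
      (WeierstrassCurve.Affine.Point.galoisRepModuleEnd (K := AlgebraicClosure ℚ) ℚ
        (W.map (Int.castRingHom ℚ)) p))
    (q : ℕ)
    (hunr : ((W.map (Int.castRingHom ℚ)).residualGaloisRepOf p hcard₁ hker).IsUnramifiedAt q) :
    MltL1Unram W p q := by
  intro A hA σ hσ x
  have h1 := hunr A hA σ hσ
  have h2 : (WeierstrassCurve.Affine.Point.galoisRepModuleEnd (K := AlgebraicClosure ℚ) ℚ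
      (W.map (Int.castRingHom ℚ)) p σ) x = x := by
    have h3 : ((W.map (Int.castRingHom ℚ)).residualGaloisRepOf p hcard₁ hker).ρ σ =
        WeierstrassCurve.Affine.Point.galoisRepModuleEnd (K := AlgebraicClosure ℚ) ℚ
          (W.map (Int.castRingHom ℚ)) p σ := rfl
    rw [← h3, h1]
    rfl
  rwa [galoisRepModuleEnd_apply] at h2

/-- **raising the level by oldforms** -/
theorem mltl1_raise (W : WeierstrassCurve ℤ) (p : ℕ) {M M' : ℕ} (hM' : M' ≠ 0) (hMM' : M ∣ M')
    (hsq : Squarefree M') (h : W.IsResiduallyModularOfLevel p M) :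
    W.IsResiduallyModularOfLevel p M' := by
  obtain ⟨f, 𝔪, hf, hmax, hpm, hcong⟩ := h
  have hmul : M * (M' / M) = M' := Nat.mul_div_cancel' hMM'
  have hsq' : Squarefree (M' / M) := by
    rw [← hmul] at hsq
    exact hsq.of_mul_right
  have hcop : (M' / M).Coprime M := by
    rw [← hmul] at hsq
    exact (Nat.coprime_of_squarefree_mul hsq).symm
  obtain ⟨g, hg, hgf⟩ := Fermat.Agent.S58.s58v_raise hM' hMM' hsq' hcop hf
  refine ⟨g, 𝔪, hg, hmax, hpm, fun ℓ hℓ hgood hℓM' hℓp => ?_⟩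
  have hℓM : ¬ ℓ ∣ M := fun hd => hℓM' (hd.trans hMM')
  have hℓd : ¬ ℓ ∣ M' / M := fun hd => hℓM' (hmul ▸ Dvd.dvd.mul_left hd M)
  obtain ⟨a, ha, ham⟩ := hcong ℓ hℓ hgood hℓM hℓp
  exact ⟨a, by rw [ha, hgf ℓ hℓ hℓd], ham⟩

/-- a minimal element of a nonempty set of divisors -/
theorem mltl1_exists_minimal (N : ℕ) (hN : 0 < N) (S : ℕ → Prop) (hS : S N) :
    ∃ M : ℕ, M ∣ N ∧ S M ∧ ∀ M' : ℕ, M' ∣ M → M' ≠ M → ¬ S M' := by
  classical
  have hex : ∃ M : ℕ, M ∣ N ∧ S M := ⟨N, dvd_rfl, hS⟩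
  refine ⟨Nat.find hex, (Nat.find_spec hex).1, (Nat.find_spec hex).2, fun M' hM' hne hSM' => ?_⟩
  have hM0 : 0 < Nat.find hex := Nat.pos_of_dvd_of_pos (Nat.find_spec hex).1 hN
  have hlt : M' < Nat.find hex := lt_of_le_of_ne (Nat.le_of_dvd hM0 hM') hne
  exact Nat.find_min hex hlt ⟨hM'.trans (Nat.find_spec hex).1, hSM'⟩

/-- **S38 for `p` from (A)+(B) and (C)** -/
theorem mltl1_main (p : ℕ) [Fact p.Prime] (hAB : MltL1Mazur p) (hC : MltL1Ihara p) :
    MltL1At p := by
  intro W hΔ hW hcard₁ hker hirr M q hq hqp hqM hq2 hMsq hunr hres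
  have hMpos : 0 < M := Nat.pos_of_ne_zero hMsq.ne_zero
  have hunrq : MltL1Unram W p q := mltl1_unram_of_residual W p hcard₁ hker q hunr
  obtain ⟨M₀, hM₀M, hM₀, hmin⟩ :=
    mltl1_exists_minimal M hMpos (fun L => W.IsResiduallyModularOfLevel p L) hres
  have hM₀pos : 0 < M₀ := Nat.pos_of_dvd_of_pos hM₀M hMpos
  have hM₀sq : Squarefree M₀ := hMsq.squarefree_of_dvd hM₀M
  have hMq : M / q * q = M := Nat.div_mul_cancel hqM
  have hMq0 : M / q ≠ 0 := by
    intro h0
    rw [h0, zero_mul] at hMq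
    exact hMpos.ne' hMq.symm
  have hMqsq : Squarefree (M / q) := hMsq.squarefree_of_dvd (Dvd.intro _ hMq)
  by_cases hqM₀ : q ∣ M₀
  swap
  · -- `M₀ ∣ M / q`
    have hdvd : M₀ ∣ M / q := by
      have h1 : M₀ ∣ M / q * q := hMq.symm ▸ hM₀M
      exact (Nat.Coprime.dvd_mul_right
        ((Nat.Prime.coprime_iff_not_dvd hq).mpr hqM₀).symm).mp h1
    exact mltl1_raise W p hMq0 hdvd hMqsq hM₀
  exfalso
  -- every unramified prime `≠ p` of `M₀` is of type (C)
  have hCp : ∀ r : ℕ, r.Prime → r ∣ M₀ → r ≠ p → MltL1Unram W p r → MltL1CPrime W p r := by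
    intro r hr hrM₀ hrp hur
    by_contra hnC
    have hnC' : ¬ (p ∣ r - 1 ∧ MltL1FrobScalar W p r) :=
      fun h => hnC ⟨hr, hrp, h.1, hur, h.2⟩
    obtain ⟨M₁, rfl⟩ : ∃ M₁, M₀ = M₁ * r := ⟨M₀ / r, (Nat.div_mul_cancel hrM₀).symm⟩
    have hM₁pos : 0 < M₁ := Nat.pos_of_mul_pos_right hM₀pos
    have hrM₁ : ¬ r ∣ M₁ := by
      intro h
      have h1 : r * r ∣ M₁ * r := Nat.mul_dvd_mul h dvd_rfl
      exact hr.one_lt.ne' (Nat.isUnit_iff.mp (hM₀sq r h1))
    have hlow := hAB W hΔ hW hirr M₁ r hM₁pos hM₀sq hr hrp hrM₁ hur hnC' hM₀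
    refine hmin M₁ (Dvd.intro _ rfl) ?_ hlow
    intro h
    have h1 : M₁ * 1 = M₁ * r := by rw [mul_one]; exact h
    exact hr.one_lt.ne' (Nat.eq_of_mul_eq_mul_left hM₁pos h1).symm
  exact hC W hΔ hW hirr M₀ hM₀pos hM₀sq hM₀ hmin hCp q hq hqM₀ hqp hunrq

/-- **the contract of [L1] from (A)+(B) and (C) at `p = 3, 5`** -/
theorem mltl1_contract (hAB : ∀ (p : ℕ) [Fact p.Prime], p = 3 ∨ p = 5 → MltL1Mazur p)
    (hC : ∀ (p : ℕ) [Fact p.Prime], p = 3 ∨ p = 5 → MltL1Ihara p) : MltL1Contract :=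
  fun p _ hp => mltl1_main p (hAB p hp) (hC p hp)

end Fermat.Agent.MLT
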