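/-
MLT / L1 (helper3), part 2: **the toric criterion and the Frobenius relations, for a general rigid
cover `X₀(M e) → X₀(M)` and with the inputs (B1)+(B2), (B3) at ONE place**

Port of `Lib/Ihara/B/Wire/{Toric,Core}.lean` (helper4) with
* the level `M * 2` replaced by `M * e` (any `e`),
* the families `IhbRedDivAll`, `IhbCmpAll` replaced by the single instances
  `IhbRedDiv 𝔓 (M * e) hK p _` and `MltL1Cmp 𝔓 M e p W` which are really used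
  (so that `p = 3`, `p ∣ M`, other rigid covers can be plugged in).

* `MltL1Cmp 𝔓 M e p W` : (B3) at the level `M` through the level `M * e`
  (`MltL1Cmp 𝔓 M 2 p W` is `IhbCmp 𝔓 M p W`: `mltl1_cmp_two`);
* `mltl1_toric`, `mltl1_V_toric`, `mltl1_V_frob_sq`, `mltl1_V_frob_w`.
-/
import Mathlib
import Fermat.Agent.Lib.Ihara.B.Wire.Core

set_option autoImplicit false
set_option linter.unusedSectionVars false
set_option linter.unusedVariables false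
set_option linter.style.haveILetI false
set_option synthInstance.maxHeartbeats 400000
set_option maxHeartbeats 1000000

namespace Fermat.Agent.MLT

open ModularCurve HahnSeries Fermat.Agent.T1 Fermat.Agent.T2 Fermat.Agent.TW Fermat.Agent.Delta
  Fermat.Agent.S33 Fermat.Agent.S33Q Fermat.Agent.S05Lib AlgebraicCurve Fermat.Agent.Curve
  Fermat.Agent.T3 Fermat.Agent.Alpha ModularFormClass CongruenceSubgroup Fermat.Agent.S24Lib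
  Fermat.Agent.Ihara

local notation "Qb" => AlgebraicClosure ℚ
local notation "GQ" => (AlgebraicClosure ℚ ≃ₐ[ℚ] AlgebraicClosure ℚ)

noncomputable section

attribute [local instance] s33g_neZero
attribute [local instance] t2gp_fact

/-- **(B3)**, the comparison at the level `M` through the level `M * e`: if the system of
eigenvalues of `W` does not occur in `J₀(M)(ℚ̄)[p]`, then every function `ȳ` of `𝔽̄_q(X₀(M))` with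
`p`-divisible divisor (at the level `M * e`) which is an eigenfunction (modulo constants and `p`-th
powers) of the operators `T̃_ℓ` with the eigenvalues of `W` is a constant times a `p`-th power in
`𝔽̄_q(X₀(M e))` -/
def MltL1Cmp (𝔓 : FFPlace) (M e : ℕ) [NeZero M] [NeZero e] (p : ℕ) (W : WeierstrassCurve ℤ) :
    Prop :=
  dlwEig M p W = ⊥ →
  ∀ yb : (↥(tbBarF 𝔓 (M * e)))ˣ,
    (((yb : ↥(tbBarF 𝔓 (M * e))) : LaurentSeries (IsLocalRing.ResidueField ↥𝔓.P)) ∈ tbBarF 𝔓 M) →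
    (∀ s : Place (IsLocalRing.ResidueField ↥𝔓.P) ↥(tbBarF 𝔓 (M * e)),
      (p : ℤ) ∣ s.ord (yb : ↥(tbBarF 𝔓 (M * e)))) →
    (∀ (ℓ : ℕ) [NeZero ℓ], ℓ.Prime → ¬ ℓ ∣ M * e * 𝔓.p → W.IsGoodPrimeFor ℓ → ℓ ≠ p →
      ∀ (ζ : (↥𝔓.P)ˣ)
        (hζK : IsPrimitiveRoot ((Units.map (𝔓.P.subtype : ↥𝔓.P →* Qb) ζ : Qbˣ) : Qb) ℓ)
        (hζk : IsPrimitiveRoot ((Units.map ((IsLocalRing.residue ↥𝔓.P : ↥𝔓.P →+*
          IsLocalRing.ResidueField ↥𝔓.P) : ↥𝔓.P →* IsLocalRing.ResidueField ↥𝔓.P) ζ :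
          (IsLocalRing.ResidueField ↥𝔓.P)ˣ) : IsLocalRing.ResidueField ↥𝔓.P) ℓ),
        ∃ (c : IsLocalRing.ResidueField ↥𝔓.P) (ub : (↥(tbBarF 𝔓 (M * e)))ˣ), c ≠ 0 ∧
          tkrTilde ℓ hζk ((yb : ↥(tbBarF 𝔓 (M * e))) :
              LaurentSeries (IsLocalRing.ResidueField ↥𝔓.P)) =
            HahnSeries.C c *
              (((yb ^ (W.apOfModel ℓ) * ub ^ p : (↥(tbBarF 𝔓 (M * e)))ˣ) :
                ↥(tbBarF 𝔓 (M * e))) : LaurentSeries (IsLocalRing.ResidueField ↥𝔓.P))) →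
    ∃ (c : IsLocalRing.ResidueField ↥𝔓.P) (gb : (↥(tbBarF 𝔓 (M * e)))ˣ), c ≠ 0 ∧
      ((yb : ↥(tbBarF 𝔓 (M * e))) : LaurentSeries (IsLocalRing.ResidueField ↥𝔓.P)) =
        HahnSeries.C c * (((gb ^ p : (↥(tbBarF 𝔓 (M * e)))ˣ) : ↥(tbBarF 𝔓 (M * e))) :
          LaurentSeries (IsLocalRing.ResidueField ↥𝔓.P))

/-- for `e = 2` this is `IhbCmp` -/
theorem mltl1_cmp_two (𝔓 : FFPlace) (M : ℕ) [NeZero M] (p : ℕ) (W : WeierstrassCurve ℤ)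
    (h : IhbCmp 𝔓 M p W) : MltL1Cmp 𝔓 M 2 p W := h

section Toric

variable (𝔓 : FFPlace) (M e : ℕ) [NeZero M] [NeZero e]
  (h49 : 4 ∣ M * e ∨ 9 ∣ M * e) (hK : ¬ 𝔓.p ∣ M * e)
  (p : ℕ) (hp : p.Prime) (hpq : p ≠ 𝔓.p)
  (W : WeierstrassCurve ℤ)
  (h1 : IhbRedDiv 𝔓 (M * e) hK p hp.ne_zero) (h3 : MltL1Cmp 𝔓 M e p W)
  (hEig : dlwEig M p W = ⊥)
  (ℓ₀ : ℕ) (hℓ₀ : ℓ₀.Prime) (hℓ₀N : ¬ ℓ₀ ∣ M * e * 𝔓.p) (hℓ₀p : ℓ₀ ≠ p)
  (hgood₀ : W.IsGoodPrimeFor ℓ₀)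
  (hne : ¬ (p : ℤ) ∣ (ℓ₀ : ℤ) + 1 - W.apOfModel ℓ₀)

include h1 h3 hEig hℓ₀ hℓ₀N hℓ₀p hgood₀ hne in
/-- **the toric criterion** -/
theorem mltl1_toric
    (Y : (↥(modularFunctionFieldBar (M * 𝔓.p)))ˣ)
    (hY : ∀ v : Place Qb ↥(modularFunctionFieldBar (M * 𝔓.p)),
      (p : ℤ) ∣ v.ord (Y : ↥(modularFunctionFieldBar (M * 𝔓.p))))
    (hI : ∀ σ ∈ 𝔓.I, σ • alpfClass hp.ne_zero Y hY = alpfClass hp.ne_zero Y hY)
    (heig : ∀ (ℓ : ℕ) (hℓ : ℓ.Prime), ¬ ℓ ∣ M * 𝔓.p → W.IsGoodPrimeFor ℓ → ℓ ≠ p →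
      heckeOperatorBar (M * 𝔓.p) ⟨ℓ, hℓ⟩ (alpfClass hp.ne_zero Y hY) =
        W.apOfModel ℓ • alpfClass hp.ne_zero Y hY) :
    ∃ s : (↥(modularFunctionFieldBar (M * e * 𝔓.p)))ˣ,
      T2fInf (M * e * 𝔓.p) 𝔓.P
        (dlwInclU (Nat.mul_dvd_mul_right (Dvd.intro e rfl : M ∣ M * e) 𝔓.p) Y * s ^ p) := by
  classical
  have hp0 : p ≠ 0 := hp.ne_zero
  have hMK : M ∣ M * e := Dvd.intro e rfl
  have hdvd : M * 𝔓.p ∣ M * e * 𝔓.p := Nat.mul_dvd_mul_right hMK 𝔓.p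
  have hM : ¬ 𝔓.p ∣ M := fun h => hK (h.mul_right e)
  obtain ⟨Y'', hY''def⟩ : ∃ Y'' : (↥(modularFunctionFieldBar (M * e * 𝔓.p)))ˣ,
      Y'' = dlwInclU hdvd Y := ⟨_, rfl⟩
  have hY'' : ∀ v : Place Qb ↥(modularFunctionFieldBar (M * e * 𝔓.p)),
      (p : ℤ) ∣ v.ord (Y'' : ↥(modularFunctionFieldBar (M * e * 𝔓.p))) := by
    rw [hY''def]; exact dlw_dvd_ord_incl hdvd Y hY
  have hcls : alpfClass hp0 Y'' hY'' = dlwPullDvd hdvd (alpfClass hp0 Y hY) := by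
    subst hY''def
    exact (dlwPullDvd_class hdvd hp0 Y hY).symm
  -- eigenvalues at the rigid level
  have hT'' : ∀ (ℓ : ℕ) (hℓ : ℓ.Prime), ¬ ℓ ∣ M * e * 𝔓.p → W.IsGoodPrimeFor ℓ → ℓ ≠ p →
      heckeOperatorBar (M * e * 𝔓.p) ⟨ℓ, hℓ⟩ (alpfClass hp0 Y'' hY'') =
        W.apOfModel ℓ • alpfClass hp0 Y'' hY'' := by
    intro ℓ hℓ hℓN hgood hℓp
    rw [hcls, ← dlwPullDvd_hecke hdvd hℓ hℓN,
      heig ℓ hℓ (fun h => hℓN (h.trans hdvd)) hgood hℓp, map_zsmul]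
  -- (B1)+(B2)
  have hord := h1 Y'' hY''
    (by
      intro σ hσ
      rw [hcls, ← dlwPullDvd_galois hdvd σ, hI σ hσ])
    ⟨ℓ₀, hℓ₀, W.apOfModel ℓ₀, hℓ₀N, hℓ₀p, hT'' ℓ₀ hℓ₀ hℓ₀N hgood₀ hℓ₀p, hne⟩
  -- the reduction computed at the level `M`
  have hy₀ := dlsRed_spec 𝔓 M hM Y
  have hle : tbBarF 𝔓 M ≤ tbBarF 𝔓 (M * e) :=
    full_degeneracyC_le (IsLocalRing.ResidueField ↥𝔓.P) hMK
  obtain ⟨yb', hyb'⟩ : ∃ yb' : ↥(tbBarF 𝔓 (M * e)),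
      (yb' : LaurentSeries (IsLocalRing.ResidueField ↥𝔓.P)) =
        ((dlsRed 𝔓 M hM Y : ↥(tbBarF 𝔓 M)) : LaurentSeries (IsLocalRing.ResidueField ↥𝔓.P)) :=
    ⟨⟨_, hle (dlsRed 𝔓 M hM Y).2⟩, rfl⟩
  have hred : DlsRedTo 𝔓.P (IsLocalRing.residue ↥𝔓.P)
      ((Y'' : ↥(modularFunctionFieldBar (M * e * 𝔓.p))) : LaurentSeries Qb)
      (yb' : LaurentSeries (IsLocalRing.ResidueField ↥𝔓.P)) := by
    rw [hY''def, coe_dlwInclU, hyb']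
    exact hy₀
  have hyb0 : yb' ≠ 0 := by
    rintro rfl
    exact hred.ne_zero_right rfl
  have hordyb : ∀ s : Place (IsLocalRing.ResidueField ↥𝔓.P) ↥(tbBarF 𝔓 (M * e)),
      (p : ℤ) ∣ s.ord yb' := by
    intro s
    rw [← dls_ord_red_eq 𝔓 (M * e) hK Y'' yb' hred s]
    exact hord s
  obtain ⟨yb, hyb⟩ : ∃ yb : (↥(tbBarF 𝔓 (M * e)))ˣ, (yb : ↥(tbBarF 𝔓 (M * e))) = yb' :=
    ⟨Units.mk0 yb' hyb0, rfl⟩
  -- the eigen-relations after reduction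
  have heigb : ∀ (ℓ : ℕ) [NeZero ℓ], ℓ.Prime → ¬ ℓ ∣ M * e * 𝔓.p → W.IsGoodPrimeFor ℓ → ℓ ≠ p →
      ∀ (ζ : (↥𝔓.P)ˣ)
        (hζK : IsPrimitiveRoot ((Units.map (𝔓.P.subtype : ↥𝔓.P →* Qb) ζ : Qbˣ) : Qb) ℓ)
        (hζk : IsPrimitiveRoot ((Units.map ((IsLocalRing.residue ↥𝔓.P : ↥𝔓.P →+*
          IsLocalRing.ResidueField ↥𝔓.P) : ↥𝔓.P →* IsLocalRing.ResidueField ↥𝔓.P) ζ :
          (IsLocalRing.ResidueField ↥𝔓.P)ˣ) : IsLocalRing.ResidueField ↥𝔓.P) ℓ),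
        ∃ (c : IsLocalRing.ResidueField ↥𝔓.P) (ub : (↥(tbBarF 𝔓 (M * e)))ˣ), c ≠ 0 ∧
          tkrTilde ℓ hζk ((yb : ↥(tbBarF 𝔓 (M * e))) :
              LaurentSeries (IsLocalRing.ResidueField ↥𝔓.P)) =
            HahnSeries.C c *
              (((yb ^ (W.apOfModel ℓ) * ub ^ p : (↥(tbBarF 𝔓 (M * e)))ˣ) :
                ↥(tbBarF 𝔓 (M * e))) : LaurentSeries (IsLocalRing.ResidueField ↥𝔓.P)) := by
    intro ℓ _ hℓ hℓN hgood hℓp ζ hζK hζk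
    have hT := hT'' ℓ hℓ hℓN hgood hℓp
    rw [dle_zsmul_eq_nsmul hp0 _ _ (alpt_class_torsion hp0 Y'' hY'')] at hT
    obtain ⟨u, hu⟩ := dle_hecke_rel (M * e * 𝔓.p) hℓ hℓN hp0 Y'' hY'' _ hT
    -- the two reductions of `T_ℓ Y''`
    have hr1 := hred.tilde ℓ ζ hζK hζk
    rw [tkrTilde_eq_tkrHecke hℓ hℓN hζK, ← tkrHeckeUnits_coe, hu] at hr1
    have hru := dlsRed_spec 𝔓 (M * e) hK u
    have hr2 := (hred.pow ((W.apOfModel ℓ % (p : ℤ)).toNat)).mul (hru.pow p)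
    have hcoe : ((((Y'' ^ (W.apOfModel ℓ % (p : ℤ)).toNat * u ^ p :
        (↥(modularFunctionFieldBar (M * e * 𝔓.p)))ˣ) : ↥(modularFunctionFieldBar (M * e * 𝔓.p))) :
        LaurentSeries Qb)) =
        ((Y'' : ↥(modularFunctionFieldBar (M * e * 𝔓.p))) : LaurentSeries Qb) ^
          (W.apOfModel ℓ % (p : ℤ)).toNat *
        ((u : ↥(modularFunctionFieldBar (M * e * 𝔓.p))) : LaurentSeries Qb) ^ p := by
      rw [Units.val_mul, Units.val_pow_eq_pow_val, Units.val_pow_eq_pow_val, MulMemClass.coe_mul,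
        SubmonoidClass.coe_pow, SubmonoidClass.coe_pow]
    rw [hcoe] at hr1
    obtain ⟨c, hc, hcy⟩ := hr2.unique hr1
    have hub0 : dlsRed 𝔓 (M * e) hK u ≠ 0 := dlsRed_ne_zero 𝔓 (M * e) hK u
    refine ⟨c, Units.mk0 _ hub0 * yb ^ (-(W.apOfModel ℓ / (p : ℤ))), hc, ?_⟩
    rw [hyb, hcy]
    congr 1
    -- the unit identity
    have hunit := ihb_unit_identity yb (Units.mk0 _ hub0) (W.apOfModel ℓ) hp0
    rw [hunit, Units.val_mul, Units.val_pow_eq_pow_val, Units.val_pow_eq_pow_val, hyb,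
      MulMemClass.coe_mul, SubmonoidClass.coe_pow, SubmonoidClass.coe_pow]
    rfl
  -- (B3)
  obtain ⟨c, gb, hc, hyg⟩ := h3 hEig yb
    (by rw [hyb, hyb']; exact (dlsRed 𝔓 M hM Y).2)
    (by intro s; rw [hyb]; exact hordyb s) heigb
  -- lift the root
  obtain ⟨g, hg⟩ := ihb_exists_lift 𝔓 (M * e) (gb : ↥(tbBarF 𝔓 (M * e))) gb.ne_zero
  refine ⟨g⁻¹, ?_⟩
  rw [← hY''def]
  refine ihb_inf_of_redTo_const 𝔓 (M * e * 𝔓.p) (Y'' * g⁻¹ ^ p) hc ?_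
  have hcoe : ((((Y'' * g⁻¹ ^ p : (↥(modularFunctionFieldBar (M * e * 𝔓.p)))ˣ) :
      ↥(modularFunctionFieldBar (M * e * 𝔓.p))) : LaurentSeries Qb)) =
      ((Y'' : ↥(modularFunctionFieldBar (M * e * 𝔓.p))) : LaurentSeries Qb) *
        (((g : ↥(modularFunctionFieldBar (M * e * 𝔓.p))) : LaurentSeries Qb)⁻¹) ^ p := by
    rw [Units.val_mul, Units.val_pow_eq_pow_val, Units.val_inv_eq_inv_val, MulMemClass.coe_mul,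
      SubmonoidClass.coe_pow]
    rfl
  rw [hcoe]
  have hr := hred.mul ((hg.inv).pow p)
  have hconst : (yb' : LaurentSeries (IsLocalRing.ResidueField ↥𝔓.P)) *
      (((gb : ↥(tbBarF 𝔓 (M * e))) : LaurentSeries (IsLocalRing.ResidueField ↥𝔓.P))⁻¹) ^ p =
      HahnSeries.C c := by
    have hgb0 : ((gb : ↥(tbBarF 𝔓 (M * e))) : LaurentSeries (IsLocalRing.ResidueField ↥𝔓.P)) ≠ 0 :=
      fun h0 => gb.ne_zero (Subtype.ext h0)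
    rw [← hyb, hyg, Units.val_pow_eq_pow_val, SubmonoidClass.coe_pow, inv_pow, mul_assoc,
      mul_inv_cancel₀ (pow_ne_zero p hgb0), mul_one]
  rw [hconst] at hr
  exact hr

end Toric

section Core

variable (𝔓 : FFPlace) (M e : ℕ) [NeZero M] [NeZero e]
  (hK : ¬ 𝔓.p ∣ M * e)
  (p : ℕ) (hp : p.Prime) (hpq : p ≠ 𝔓.p)
  (W : WeierstrassCurve ℤ)
  (h1 : IhbRedDiv 𝔓 (M * e) hK p hp.ne_zero) (h3 : MltL1Cmp 𝔓 M e p W)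
  (hEig : dlwEig M p W = ⊥)
  (ℓ₀ : ℕ) (hℓ₀ : ℓ₀.Prime) (hℓ₀N : ¬ ℓ₀ ∣ M * e * 𝔓.p) (hℓ₀p : ℓ₀ ≠ p)
  (hgood₀ : W.IsGoodPrimeFor ℓ₀)
  (hne : ¬ (p : ℤ) ∣ (ℓ₀ : ℤ) + 1 - W.apOfModel ℓ₀)
  (V₀ : AddSubgroup (JZero (M * 𝔓.p))) (htor : ∀ x ∈ V₀, p • x = 0)
  (hI : ∀ σ ∈ 𝔓.I, ∀ x ∈ V₀, σ • x = x)
  (heig : ∀ (ℓ : ℕ) (hℓ : ℓ.Prime), ¬ ℓ ∣ M * 𝔓.p → W.IsGoodPrimeFor ℓ → ℓ ≠ p →
    ∀ x ∈ V₀, heckeOperatorBar (M * 𝔓.p) ⟨ℓ, hℓ⟩ x = W.apOfModel ℓ • x)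

include hpq h1 h3 hEig hℓ₀ hℓ₀N hℓ₀p hgood₀ hne htor hI heig

/-- both `Y''` and `w_q Y''` are toric, for a Kummer function of a point of `V₀` -/
theorem mltl1_V_toric (x : JZero (M * 𝔓.p)) (hx : x ∈ V₀)
    (Y : (↥(modularFunctionFieldBar (M * 𝔓.p)))ˣ)
    (hY : ∀ v : Place Qb ↥(modularFunctionFieldBar (M * 𝔓.p)),
      (p : ℤ) ∣ v.ord (Y : ↥(modularFunctionFieldBar (M * 𝔓.p))))
    (hYx : alpfClass hp.ne_zero Y hY = x) :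
    (∃ s : (↥(modularFunctionFieldBar (M * e * 𝔓.p)))ˣ, T2fInf (M * e * 𝔓.p) 𝔓.P
      (dlwInclU (Nat.mul_dvd_mul_right (Dvd.intro e rfl : M ∣ M * e) 𝔓.p) Y * s ^ p)) ∧
    (∃ s : (↥(modularFunctionFieldBar (M * e * 𝔓.p)))ˣ, T2fInf (M * e * 𝔓.p) 𝔓.P
      (dleWU (M * e) 𝔓.p hK
        (dlwInclU (Nat.mul_dvd_mul_right (Dvd.intro e rfl : M ∣ M * e) 𝔓.p) Y) * s ^ p)) := by
  have hp0 := hp.ne_zero
  have hM : ¬ 𝔓.p ∣ M := fun h => hK (h.mul_right e)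
  have hMK : M ∣ M * e := Dvd.intro e rfl
  have hdvd : M * 𝔓.p ∣ M * e * 𝔓.p := Nat.mul_dvd_mul_right hMK 𝔓.p
  constructor
  · refine mltl1_toric 𝔓 M e hK p hp W h1 h3 hEig ℓ₀ hℓ₀ hℓ₀N hℓ₀p hgood₀ hne Y hY ?_ ?_
    · intro σ hσ
      rw [hYx]
      exact hI σ hσ x hx
    · intro ℓ hℓ hℓN hgood hℓp
      rw [hYx]
      exact heig ℓ hℓ hℓN hgood hℓp x hx
  · rw [ihb_w_incl M e 𝔓.p hM hK Y]
    have hYw := dle_dvd_ord_w M 𝔓.p hM Y hY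
    have hcl : alpfClass hp0 (dleWU M 𝔓.p hM Y) hYw = dleWJ M 𝔓.p hM x := by
      rw [← hYx]
      exact (dleWJ_class M 𝔓.p hM hp0 Y hY).symm
    refine mltl1_toric 𝔓 M e hK p hp W h1 h3 hEig ℓ₀ hℓ₀ hℓ₀N hℓ₀p hgood₀ hne
      (dleWU M 𝔓.p hM Y) hYw ?_ ?_
    · intro σ hσ
      rw [hcl, ← dleWJ_galois M 𝔓.p hM σ x, hI σ hσ x hx]
    · intro ℓ hℓ hℓN hgood hℓp
      haveI : Fact ℓ.Prime := ⟨hℓ⟩
      have h0 := heig ℓ hℓ hℓN hgood hℓp x hx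
      rw [← hYx] at h0
      exact dle_class_w_eigen_int M 𝔓.p ℓ hM hp0 hℓN Y hY (W.apOfModel ℓ) h0

/-- **`φ² = q²` on `V₀`** -/
theorem mltl1_V_frob_sq {φ : GQ} (hφ : 𝔓.P.IsFrobeniusAt φ 𝔓.p) (x : JZero (M * 𝔓.p))
    (hx : x ∈ V₀) : φ • φ • x = (𝔓.p ^ 2) • x := by
  have hp0 := hp.ne_zero
  have hMK : M ∣ M * e := Dvd.intro e rfl
  have hdvd : M * 𝔓.p ∣ M * e * 𝔓.p := Nat.mul_dvd_mul_right hMK 𝔓.p
  obtain ⟨Y, hY, hYx⟩ := alpf_exists_class hp0 x (by rw [natCast_zsmul]; exact htor x hx)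
  obtain ⟨T1, T2⟩ := mltl1_V_toric 𝔓 M e hK p hp hpq W h1 h3 hEig ℓ₀ hℓ₀
    hℓ₀N hℓ₀p hgood₀ hne V₀ htor hI heig x hx Y hY hYx
  have hY'' := dlw_dvd_ord_incl hdvd Y hY
  have h := ihb_frob_sq 𝔓 (M * e) hK hφ hp hpq (dlwInclU hdvd Y) hY'' T1 T2
  rw [← dlwPullDvd_class hdvd hp0 Y hY, hYx, ← dlwPullDvd_galois, ← dlwPullDvd_galois,
    ← map_nsmul] at h
  have h0 : dlwPullDvd hdvd (φ • φ • x - (𝔓.p ^ 2) • x) = 0 := by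
    rw [map_sub, h, sub_self]
  have htor' : p • (φ • φ • x - (𝔓.p ^ 2) • x) = 0 := by
    have a1 : p • (φ • x) = 0 := by
      rw [smul_comm p φ x, htor x hx]
      exact smul_zero (A := JZero (M * 𝔓.p)) φ
    have e1 : p • (φ • φ • x) = 0 := by
      rw [smul_comm p φ (φ • x), a1]
      exact smul_zero (A := JZero (M * 𝔓.p)) φ
    have e2 : p • ((𝔓.p ^ 2) • x) = 0 := by
      rw [smul_comm p (𝔓.p ^ 2) x, htor x hx]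
      exact smul_zero (A := JZero (M * 𝔓.p)) (𝔓.p ^ 2)
    rw [nsmul_sub, e1, e2, sub_zero]
  exact sub_eq_zero.mp (dlwPullDvd_eq_zero hdvd hp0 _ htor' h0)

/-- **`φ = - q w_q` on (the pull-back of) `V₀`** -/
theorem mltl1_V_frob_w (h4 : IhbToricFrob) {φ : GQ} (hφ : 𝔓.P.IsFrobeniusAt φ 𝔓.p)
    (x : JZero (M * 𝔓.p)) (hx : x ∈ V₀) :
    dlwPullDvd (Nat.mul_dvd_mul_right (Dvd.intro e rfl : M ∣ M * e) 𝔓.p) (φ • x) +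
      𝔓.p • dleWJ (M * e) 𝔓.p hK
        (dlwPullDvd (Nat.mul_dvd_mul_right (Dvd.intro e rfl : M ∣ M * e) 𝔓.p) x) = 0 := by
  have hp0 := hp.ne_zero
  have hMK : M ∣ M * e := Dvd.intro e rfl
  have hdvd : M * 𝔓.p ∣ M * e * 𝔓.p := Nat.mul_dvd_mul_right hMK 𝔓.p
  obtain ⟨Y, hY, hYx⟩ := alpf_exists_class hp0 x (by rw [natCast_zsmul]; exact htor x hx)
  obtain ⟨T1, T2⟩ := mltl1_V_toric 𝔓 M e hK p hp hpq W h1 h3 hEig ℓ₀ hℓ₀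
    hℓ₀N hℓ₀p hgood₀ hne V₀ htor hI heig x hx Y hY hYx
  have hY'' := dlw_dvd_ord_incl hdvd Y hY
  have h := ihb_frob_w 𝔓 (M * e) hK h4 hφ hp hpq (dlwInclU hdvd Y) hY'' T1 T2
  rw [← dlwPullDvd_class hdvd hp0 Y hY, hYx, ← dlwPullDvd_galois] at h
  exact h

end Core

end

end Fermat.Agent.MLT
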