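/-
MLT / L1 (helper3), part 3: **the core of Mazur's principle for a general integral model `W`**

Port of `ihb_core` (`Lib/Ihara/B/Main.lean`, helper4) without the Frey package, for a general rigid cover
`X₀(M e) → X₀(M)` and with the inputs (B1)+(B2) and (B3) at the single place `𝔓 | q`:

`mltl1_core`: `W[p]` irreducible (`p` odd), residually modular of the level `M q` but NOT of the level
`M`, unramified at `q = 𝔓.p ∤ M e`, `q ∣ Δ_W`.  Then `p ∣ q - 1` and every Frobenius element at `𝔓`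
acts on `W[p]` as a scalar.
-/
import Mathlib
import Fermat.Agent.Lib.MLT.L1.Wire
import Fermat.Agent.Lib.MLT.L1.Defs
import Fermat.Agent.Lib.Ihara.B.Main

set_option autoImplicit false
set_option linter.unusedSectionVars false
set_option linter.unusedVariables false
set_option linter.style.haveILetI false
set_option synthInstance.maxHeartbeats 400000
set_option maxHeartbeats 2000000

open WeierstrassCurve WeierstrassCurve.Affine WeierstrassCurve.Affine.Point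

namespace Fermat.Agent.MLT

open ModularCurve Fermat.Agent.T1 Fermat.Agent.T2 Fermat.Agent.TW Fermat.Agent.Delta
  Fermat.Agent.S33 Fermat.Agent.S33Q Fermat.Agent.S05Lib AlgebraicCurve Fermat.Agent.Curve
  Fermat.Agent.T3 Fermat.Agent.Alpha ModularFormClass CongruenceSubgroup Fermat.Agent.S24Lib
  Fermat.Agent.S13Lib Fermat.Agent.S58 Fermat.Agent.Ihara

local notation "Qb" => AlgebraicClosure ℚ
local notation "GQ" => (AlgebraicClosure ℚ ≃ₐ[ℚ] AlgebraicClosure ℚ)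

noncomputable section

attribute [local instance] s33g_neZero
attribute [local instance] t2gp_fact

/-- `W` is an integral model of its generic fibre -/
theorem mltl1_model_self (W : WeierstrassCurve ℤ) :
    W.IsIntegralModelOf (W.map (Int.castRingHom ℚ)) := ⟨1, one_smul _ _⟩

/-- **the core of Mazur's principle**, general `W` -/
theorem mltl1_core (𝔓 : FFPlace) (M e : ℕ) [NeZero M] [NeZero e] (hK : ¬ 𝔓.p ∣ M * e)
    (p : ℕ) (hp : p.Prime) (hp2 : p ≠ 2) (hpq : p ≠ 𝔓.p)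
    (W : WeierstrassCurve ℤ) (hΔ : W.Δ ≠ 0) (hirrW : W.ModRepIsIrreducible p)
    (h1 : IhbRedDiv 𝔓 (M * e) hK p hp.ne_zero) (h3 : MltL1Cmp 𝔓 M e p W) (h4 : IhbToricFrob)
    (hunr : MltL1Unram W p 𝔓.p)
    (hres : W.IsResiduallyModularOfLevel p (M * 𝔓.p))
    (hnot : ¬ W.IsResiduallyModularOfLevel p M)
    (φ : GQ) (hφ : 𝔓.P.IsFrobeniusAt φ 𝔓.p) :
    p ∣ 𝔓.p - 1 ∧ ∃ c : ℤ, ∀ x : Submodule.torsionBy ℤ
      ((W.map (Int.castRingHom ℚ)).toAffine⁄Qb).Point p, φ • x = c • x := by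
  classical
  haveI : Fact p.Prime := ⟨hp⟩
  have hq : 𝔓.p.Prime := 𝔓.hp
  have hA : 𝔓.P.LiesOverPrime 𝔓.p := 𝔓.hP
  have hp0 : p ≠ 0 := hp.ne_zero
  have hMpos : 0 < M := Nat.pos_of_ne_zero (NeZero.ne M)
  have hepos : 0 < e := Nat.pos_of_ne_zero (NeZero.ne e)
  haveI : (W.map (Int.castRingHom ℚ)).IsElliptic := by
    refine ⟨?_⟩
    rw [WeierstrassCurve.map_Δ]
    refine isUnit_iff_ne_zero.mpr ?_
    rw [eq_intCast]
    exact_mod_cast hΔ
  -- the copy of `W[p]` in `J₀(M q)[p]`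
  obtain ⟨f, 𝔪, hf, hmax, hpm, hcong⟩ := hres
  obtain ⟨x₀, hx₀, hx₀p, hx₀e⟩ :=
    dlw_exists_eigen (N := M * 𝔓.p) (p := p) (W := W) f 𝔪 hf hmax hpm hcong
  obtain ⟨V₀, ψ, hle, hstab, hψ⟩ := dlw_exists_iso (M * 𝔓.p) hp2 W hΔ hirrW x₀ hx₀ ⟨hx₀p, hx₀e⟩
  have htor : ∀ x ∈ V₀, p • x = 0 := fun x hx => (hle hx).1
  have heig : ∀ (ℓ : ℕ) (hℓ : ℓ.Prime), ¬ ℓ ∣ M * 𝔓.p → W.IsGoodPrimeFor ℓ → ℓ ≠ p →
      ∀ x ∈ V₀, heckeOperatorBar (M * 𝔓.p) ⟨ℓ, hℓ⟩ x = W.apOfModel ℓ • x :=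
    fun ℓ hℓ hℓN hgood hℓp x hx => (hle hx).2 ℓ hℓ hℓN hgood hℓp
  -- the eigensystem does not occur at the level `M`
  have hEig : dlwEig M p W = ⊥ := by
    rw [AddSubgroup.eq_bot_iff_forall]
    intro y hy
    by_contra hy0
    exact hnot (dlw_D0 M p W y hy0 hy.1 hy.2)
  -- a non-Eisenstein prime
  obtain ⟨ℓ₀, hℓ₀, hℓ₀T, hgood₀, hne⟩ := Fermat.Agent.LR.lre_exists_prime_not_eisenstein
    (W.map (Int.castRingHom ℚ)) (mltl1_model_self W) hp hp2 hirrW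
    (insert p (M * e * 𝔓.p).primeFactors)
  rw [Finset.mem_insert, not_or] at hℓ₀T
  have hℓ₀p : ℓ₀ ≠ p := hℓ₀T.1
  have hℓ₀N : ¬ ℓ₀ ∣ M * e * 𝔓.p := fun h =>
    hℓ₀T.2 (Nat.mem_primeFactors.mpr ⟨hℓ₀, h,
      Nat.mul_ne_zero (Nat.mul_ne_zero hMpos.ne' hepos.ne') hq.ne_zero⟩)
  -- the inertia group acts trivially on `V₀`
  have hI : ∀ σ ∈ 𝔓.I, ∀ x ∈ V₀, σ • x = x := by
    intro σ hσ x hx
    obtain ⟨Q, hQ⟩ : ∃ Q, ((ψ Q : ↥V₀) : JZero (M * 𝔓.p)) = x :=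
      ⟨ψ.symm ⟨x, hx⟩, by rw [AddEquiv.apply_symm_apply]⟩
    have h0 : σ • Q = Q := hunr 𝔓.P hA σ hσ Q
    rw [← hQ, ← hψ, h0]
  -- the Frobenius relations on `V₀`
  have hsqV : ∀ x ∈ V₀, φ • φ • x = (𝔓.p ^ 2) • x := fun x hx =>
    mltl1_V_frob_sq 𝔓 M e hK p hp hpq W h1 h3 hEig ℓ₀ hℓ₀ hℓ₀N hℓ₀p hgood₀ hne V₀ htor hI heig
      hφ x hx
  have hwV := fun x hx =>
    mltl1_V_frob_w 𝔓 M e hK p hp hpq W h1 h3 hEig ℓ₀ hℓ₀ hℓ₀N hℓ₀p hgood₀ hne V₀ htor hI heig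
      h4 hφ x hx
  -- linear algebra on `W[p]`
  obtain ⟨hfree, hfin, hrank⟩ := s58m_free W hΔ hp (pow_one p).symm
  haveI := hfree
  haveI := hfin
  have h2 : Module.finrank (ZMod p) (S58Tors W p) = 2 := hrank one_ne_zero
  obtain ⟨g, hg⟩ : ∃ g : Module.End (ZMod p) (S58Tors W p), g = s58Gal W p φ := ⟨_, rfl⟩
  have hgapp : ∀ Q : S58Tors W p, g Q = φ • Q := by
    intro Q
    rw [hg]
    exact galoisRepModuleEnd_apply _ _ _ _
  have hq0 : ((𝔓.p : ℕ) : ZMod p) ≠ 0 := by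
    rw [Ne, ZMod.natCast_eq_zero_iff]
    intro h
    exact hpq ((Nat.prime_dvd_prime_iff_eq hp hq).mp h)
  have hψinj : ∀ Q Q' : S58Tors W p,
      ((ψ Q : ↥V₀) : JZero (M * 𝔓.p)) = ((ψ Q' : ↥V₀) : JZero (M * 𝔓.p)) → Q = Q' :=
    fun Q Q' h => ψ.injective (Subtype.ext h)
  have hgsq : g * g =
      (((𝔓.p : ℕ) : ZMod p) ^ 2) • (1 : Module.End (ZMod p) (S58Tors W p)) := by
    apply LinearMap.ext
    intro Q
    apply hψinj
    rw [Module.End.mul_apply, hgapp, hgapp, hψ, hψ, hsqV _ (ψ Q).2, LinearMap.smul_apply,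
      Module.End.one_apply, ← Nat.cast_pow, Nat.cast_smul_eq_nsmul, map_nsmul,
      AddSubgroup.coe_nsmul]
  have hdet : LinearMap.det g = ((𝔓.p : ℕ) : ZMod p) := by
    rw [hg]
    exact ihb_det_frob W hΔ hp hq hpq hA hφ
  -- `φ` is a scalar
  have hscal : ∃ c : ZMod p, g = c • (1 : Module.End (ZMod p) (S58Tors W p)) := by
    rcases ihb_scalar_or h2 g _ hq0 hgsq hdet with hc | ⟨hqm1, hgg⟩
    · exact hc
    · -- `q ≡ -1 mod p`: `φ = w_q` on `V₀`
      have hMK : M ∣ M * e := Dvd.intro e rfl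
      have hdvd : M * 𝔓.p ∣ M * e * 𝔓.p := Nat.mul_dvd_mul_right hMK 𝔓.p
      have hpdvd : p ∣ 𝔓.p + 1 := by
        rw [← ZMod.natCast_eq_zero_iff]
        push_cast
        rw [hqm1]
        ring
      have key : ∀ x ∈ V₀, dlwPullDvd hdvd (φ • x) =
          dleWJ (M * e) 𝔓.p hK (dlwPullDvd hdvd x) := by
        intro x hx
        have h0 := hwV x hx
        have h5 : (𝔓.p + 1) • dleWJ (M * e) 𝔓.p hK (dlwPullDvd hdvd x) = 0 := by
          obtain ⟨k, hk⟩ := hpdvd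
          have h7 : p • dleWJ (M * e) 𝔓.p hK (dlwPullDvd hdvd x) = 0 := by
            rw [← map_nsmul, ← map_nsmul, htor x hx, _root_.map_zero, _root_.map_zero]
          rw [hk, mul_nsmul, h7, nsmul_zero]
        rw [add_nsmul, one_nsmul] at h5
        have h6 := h0.trans h5.symm
        rw [add_comm] at h6
        exact add_left_cancel h6
      have comm : ∀ (σ : GQ), ∀ x ∈ V₀, φ • σ • x = σ • φ • x := by
        intro σ x hx
        have e1 : dlwPullDvd hdvd (φ • σ • x) = dlwPullDvd hdvd (σ • φ • x) := by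
          rw [key (σ • x) (hstab σ x hx), dlwPullDvd_galois, dleWJ_galois, ← key x hx,
            ← dlwPullDvd_galois]
        have hmem : φ • σ • x - σ • φ • x ∈ V₀ :=
          V₀.sub_mem (hstab φ _ (hstab σ x hx)) (hstab σ _ (hstab φ x hx))
        have e2 : dlwPullDvd hdvd (φ • σ • x - σ • φ • x) = 0 := by
          rw [map_sub, e1, sub_self]
        exact sub_eq_zero.mp (dlwPullDvd_eq_zero hdvd hp0 _ (htor _ hmem) e2)
      have hcomm : ∀ σ' ∈ Set.range (s58Gal W p), σ' * g = g * σ' := by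
        rintro _ ⟨σ, rfl⟩
        apply LinearMap.ext
        intro Q
        apply hψinj
        rw [Module.End.mul_apply, Module.End.mul_apply, hgapp, hgapp]
        have e3 : ∀ Q' : S58Tors W p, (s58Gal W p σ) Q' = σ • Q' :=
          fun Q' => galoisRepModuleEnd_apply _ _ _ _
        rw [e3, e3, hψ, hψ, hψ, hψ]
        exact (comm σ _ (ψ Q).2).symm
      have hirr' : ∀ N : Submodule (ZMod p) (S58Tors W p),
          (∀ σ' ∈ Set.range (s58Gal W p), ∀ x ∈ N, σ' x ∈ N) → N = ⊥ ∨ N = ⊤ := by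
        intro N hN
        refine hirrW.2 N (fun σ x hx => ?_)
        have := hN (s58Gal W p σ) ⟨σ, rfl⟩ x hx
        rwa [galoisRepModuleEnd_apply] at this
      rcases ihb_scalar_of_commute g hgg (Set.range (s58Gal W p)) hirr' hcomm with h | h
      · exact ⟨1, by rw [h, one_smul]⟩
      · exact ⟨-1, by rw [h, neg_smul, one_smul]⟩
  obtain ⟨c, hc⟩ := hscal
  have hq1 : ((𝔓.p : ℕ) : ZMod p) = 1 := ihb_eq_one_of_scalar h2 g _ hq0 hgsq hdet c hc
  constructor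
  · have h3' : ((𝔓.p : ℕ) : ZMod p) = ((1 : ℕ) : ZMod p) := by rw [hq1, Nat.cast_one]
    have hmod := (ZMod.natCast_eq_natCast_iff _ _ _).mp h3'
    exact (Nat.modEq_iff_dvd' hq.one_lt.le).mp hmod.symm
  · refine ⟨((c.val : ℕ) : ℤ), fun x => ?_⟩
    have h5 : g x = c • x := by rw [hc, LinearMap.smul_apply, Module.End.one_apply]
    rw [← hgapp, h5, natCast_zsmul, ← Nat.cast_smul_eq_nsmul (ZMod p), ZMod.natCast_zmod_val]

end

end Fermat.Agent.MLT
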