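/-
MLT / L1 (helper3), part 4: **the model scaled by `q`**

For `W : WeierstrassCurve ℤ` and `q ≠ 0`: `mltl1Scale W q` is the integral model
`[q a₁, q² a₂, q³ a₃, q⁴ a₄, q⁶ a₆]` (the change of variables `u = 1 / q`), with `Δ = q¹² Δ_W`.  It has the
same generic fibre up to isomorphism, hence the same `a_ℓ` at the primes `ℓ ≠ q` of good reduction for
`W` (`s45_ap_eq`), the same mod `p` representation, and `q` is a prime of BAD reduction of the model.
This is how a prime `q` of good reduction of `W` is kept out of the sets of "good" Hecke operators of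
`Lib/Delta/Wire`, `Lib/Ihara/B`.
-/
import Mathlib
import Fermat.Agent.Lib.S45.Model
import Fermat.Agent.Lib.MLT.L1.Defs
import Fermat.Agent.Lib.X015.VariableChangePoint

set_option autoImplicit false
set_option linter.unusedVariables false

open WeierstrassCurve WeierstrassCurve.Affine WeierstrassCurve.Affine.Point

namespace Fermat.Agent.MLT

open Fermat.Agent.S58 Fermat.Agent.S13Lib

local notation "Qb" => AlgebraicClosure ℚ
local notation "GQ" => (AlgebraicClosure ℚ ≃ₐ[ℚ] AlgebraicClosure ℚ)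

/-- the integral model scaled by `q` -/
def mltl1Scale (W : WeierstrassCurve ℤ) (q : ℕ) : WeierstrassCurve ℤ :=
  ⟨(q : ℤ) * W.a₁, (q : ℤ) ^ 2 * W.a₂, (q : ℤ) ^ 3 * W.a₃, (q : ℤ) ^ 4 * W.a₄, (q : ℤ) ^ 6 * W.a₆⟩

theorem mltl1Scale_Δ (W : WeierstrassCurve ℤ) (q : ℕ) :
    (mltl1Scale W q).Δ = (q : ℤ) ^ 12 * W.Δ := by
  simp only [mltl1Scale, WeierstrassCurve.Δ, WeierstrassCurve.b₂, WeierstrassCurve.b₄,
    WeierstrassCurve.b₆, WeierstrassCurve.b₈]
  ring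

theorem mltl1Scale_Δ_ne_zero (W : WeierstrassCurve ℤ) {q : ℕ} (hq : q ≠ 0) (hΔ : W.Δ ≠ 0) :
    (mltl1Scale W q).Δ ≠ 0 := by
  rw [mltl1Scale_Δ]
  exact mul_ne_zero (pow_ne_zero 12 (by exact_mod_cast hq)) hΔ

theorem mltl1Scale_dvd_Δ (W : WeierstrassCurve ℤ) (q : ℕ) : (q : ℤ) ∣ (mltl1Scale W q).Δ := by
  rw [mltl1Scale_Δ]
  exact Dvd.dvd.mul_right (dvd_pow_self _ (by norm_num)) _

/-- the change of variables `u = 1 / q` over `ℚ` -/
def mltl1ScaleC (q : ℕ) (hq : q ≠ 0) : VariableChange ℚ :=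
  ⟨(Units.mk0 (q : ℚ) (by exact_mod_cast hq))⁻¹, 0, 0, 0⟩

theorem mltl1Scale_map (W : WeierstrassCurve ℤ) {q : ℕ} (hq : q ≠ 0) :
    s58E (mltl1Scale W q) = mltl1ScaleC q hq • s58E W := by
  have hu : (((mltl1ScaleC q hq).u⁻¹ : ℚˣ) : ℚ) = (q : ℚ) := by
    simp [mltl1ScaleC]
  ext
  · rw [variableChange_a₁, hu]
    simp [s58E, mltl1Scale, mltl1ScaleC]
  · rw [variableChange_a₂, hu]
    simp [s58E, mltl1Scale, mltl1ScaleC]
  · rw [variableChange_a₃, hu]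
    simp [s58E, mltl1Scale, mltl1ScaleC]
  · rw [variableChange_a₄, hu]
    simp [s58E, mltl1Scale, mltl1ScaleC]
  · rw [variableChange_a₆, hu]
    simp [s58E, mltl1Scale, mltl1ScaleC]

/-- good primes of the scaled model are good primes of `W` different from `q` -/
theorem mltl1Scale_good (W : WeierstrassCurve ℤ) {q ℓ : ℕ}
    (h : (mltl1Scale W q).IsGoodPrimeFor ℓ) : W.IsGoodPrimeFor ℓ ∧ ℓ ≠ q := by
  constructor
  · intro hd
    apply h
    show (ℓ : ℤ) ∣ (mltl1Scale W q).Δ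
    rw [mltl1Scale_Δ]
    exact Dvd.dvd.mul_left hd _
  · rintro rfl
    exact h (mltl1Scale_dvd_Δ W ℓ)

theorem mltl1Scale_good_of (W : WeierstrassCurve ℤ) {q ℓ : ℕ} (hq : q.Prime) (hℓ : ℓ.Prime)
    (h : W.IsGoodPrimeFor ℓ) (hne : ℓ ≠ q) : (mltl1Scale W q).IsGoodPrimeFor ℓ := by
  intro hd
  have hd' : (ℓ : ℤ) ∣ (mltl1Scale W q).Δ := hd
  rw [mltl1Scale_Δ] at hd'
  have hℓZ : Prime (ℓ : ℤ) := Nat.prime_iff_prime_int.mp hℓ
  rcases hℓZ.dvd_or_dvd hd' with h1 | h1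
  · have h2 := hℓZ.dvd_of_dvd_pow h1
    have h3 : ℓ ∣ q := by exact_mod_cast h2
    exact hne ((Nat.prime_dvd_prime_iff_eq hℓ hq).mp h3)
  · exact h h1

/-- the `a_ℓ` of the scaled model -/
theorem mltl1Scale_ap (W : WeierstrassCurve ℤ) (hΔ : W.Δ ≠ 0) {q ℓ : ℕ} (hq : q ≠ 0)
    (hℓ : ℓ.Prime) (h : (mltl1Scale W q).IsGoodPrimeFor ℓ) :
    (mltl1Scale W q).apOfModel ℓ = W.apOfModel ℓ :=
  Fermat.Agent.S45.s45_ap_eq (mltl1Scale_Δ_ne_zero W hq hΔ) hΔ (mltl1ScaleC q hq)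
    (mltl1Scale_map W hq) hℓ h (mltl1Scale_good W h).1

/-- the Galois-equivariant isomorphism `W[n] ≅ W'[n]` -/
theorem mltl1Scale_equiv (W : WeierstrassCurve ℤ) {q : ℕ} (hq : q ≠ 0) (n : ℕ) :
    ∃ e : S58Tors W n ≃ₗ[ZMod n] S58Tors (mltl1Scale W q) n,
      ∀ (σ : GQ) (x : S58Tors W n), e (σ • x) = σ • e x :=
  Fermat.Agent.S45.s45_exists_equiv (mltl1ScaleC q hq) (mltl1Scale_map W hq) n

/-- irreducibility of the scaled model -/
theorem mltl1Scale_irr (W : WeierstrassCurve ℤ) {q : ℕ} (hq : q ≠ 0) (p : ℕ)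
    (h : W.ModRepIsIrreducible p) : (mltl1Scale W q).ModRepIsIrreducible p := by
  have h1 : GaloisRepIsIrreducible (K := Qb) ℚ (mltl1ScaleC q hq • s58E W).toAffine p :=
    (Fermat.Agent.X015.galoisRepIsIrreducible_variableChange_iff (s58E W) (mltl1ScaleC q hq) p).mpr h
  rw [← mltl1Scale_map W hq] at h1
  exact h1

/-- unramifiedness of the scaled model -/
theorem mltl1Scale_unram (W : WeierstrassCurve ℤ) {q : ℕ} (hq : q ≠ 0) (p r : ℕ)
    (h : MltL1Unram W p r) : MltL1Unram (mltl1Scale W q) p r := by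
  obtain ⟨e, he⟩ := mltl1Scale_equiv W hq p
  intro A hA σ hσ x
  have h1 : σ • e.symm x = e.symm x := h A hA σ hσ (e.symm x)
  have h2 := he σ (e.symm x)
  rw [h1, LinearEquiv.apply_symm_apply] at h2
  exact h2.symm

/-- scalar Frobenius descends from the scaled model -/
theorem mltl1Scale_frobScalar (W : WeierstrassCurve ℤ) {q : ℕ} (hq : q ≠ 0) (p r : ℕ)
    (h : MltL1FrobScalar (mltl1Scale W q) p r) : MltL1FrobScalar W p r := by
  obtain ⟨e, he⟩ := mltl1Scale_equiv W hq p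
  intro A hA φ hφ
  obtain ⟨c, hc⟩ := h A hA φ hφ
  refine ⟨c, fun x => ?_⟩
  apply e.injective
  have h1 : e (c • x) = c • e x := map_zsmul e.toLinearMap.toAddMonoidHom c x
  rw [he, hc (e x), h1]

/-- residual modularity of the scaled model -/
theorem mltl1Scale_resid (W : WeierstrassCurve ℤ) (hΔ : W.Δ ≠ 0) {q : ℕ} (hq : q ≠ 0) (p N : ℕ)
    (h : W.IsResiduallyModularOfLevel p N) : (mltl1Scale W q).IsResiduallyModularOfLevel p N := by
  obtain ⟨f, 𝔪, hf, hmax, hpm, hcong⟩ := h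
  refine ⟨f, 𝔪, hf, hmax, hpm, fun ℓ hℓ hgood hℓN hℓp => ?_⟩
  rw [mltl1Scale_ap W hΔ hq hℓ hgood]
  exact hcong ℓ hℓ (mltl1Scale_good W hgood).1 hℓN hℓp

end Fermat.Agent.MLT
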