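/-
MLT / L1 (helper3), part 5: **Mazur's principle for a general integral model `W` at an EVEN level**

`M` even, `q` an odd prime, `q ∤ M`, `q ≠ p`, `p` odd (`p ∣ M` allowed), `W[p]` irreducible and unramified
at `q`, `q` not of type (C): level `M q` ⟹ level `M`.

* `MltL1RedDivFam p` : the input (B1)+(B2) for the prime `p` at all rigid levels `4 ∣ K`
  (`mltl1_redDivFam_five` : it holds for `p ≥ 5`, helper4's `ihb_redDiv`);
* `MltL1CongAt p` : **contract** (expected from [R]: Chebotarev + Brauer–Nesbitt + Eichler–Shimura at `q`,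
  the port of `Lib/Ihara/Rb/CongAll.lean` to a general `W`): the congruence `a_q(f) ≡ a_q(W)` at ONE more
  prime `q ∤ M p` of good reduction, from the congruences at all other good primes;
* `mltl1_mazur_even_bad` : the case `q ∣ Δ_W` (multiplicative reduction at `q`);
* `mltl1_mazur_even`     : the general case (for `q ∤ Δ_W` pass to the model scaled by `q`, `Scale.lean`, and
  recover the congruence at `q` by `MltL1CongAt`).
-/
import Mathlib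
import Fermat.Agent.Lib.MLT.L1.Core
import Fermat.Agent.Lib.MLT.L1.Scale
import Fermat.Agent.Lib.Ihara.B.Mazur
import Fermat.Agent.Lib.Ihara.B.Cmp.Final

set_option autoImplicit false
set_option linter.unusedSectionVars false
set_option linter.unusedVariables false
set_option linter.style.haveILetI false
set_option synthInstance.maxHeartbeats 400000
set_option maxHeartbeats 1000000

open WeierstrassCurve WeierstrassCurve.Affine WeierstrassCurve.Affine.Point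

namespace Fermat.Agent.MLT

open ModularCurve Fermat.Agent.T1 Fermat.Agent.T2 Fermat.Agent.TW Fermat.Agent.Delta
  Fermat.Agent.S33 Fermat.Agent.S05Lib AlgebraicCurve Fermat.Agent.Curve
  Fermat.Agent.T3 Fermat.Agent.Alpha Fermat.Agent.S58 Fermat.Agent.Ihara

local notation "Qb" => AlgebraicClosure ℚ
local notation "GQ" => (AlgebraicClosure ℚ ≃ₐ[ℚ] AlgebraicClosure ℚ)

/-- (B1)+(B2) for the prime `p` at all rigid levels `K` with `4 ∣ K` -/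
def MltL1RedDivFam (p : ℕ) (hp0 : p ≠ 0) : Prop :=
  ∀ (𝔓 : FFPlace) (K : ℕ) [NeZero K] (hK : ¬ 𝔓.p ∣ K), 4 ∣ K → p ≠ 𝔓.p →
    IhbRedDiv 𝔓 K hK p hp0

/-- (B1)+(B2) for `p ≥ 5` (helper4) -/
theorem mltl1_redDivFam_five (p : ℕ) (hp : p.Prime) (hp5 : 5 ≤ p) :
    MltL1RedDivFam p hp.ne_zero :=
  fun 𝔓 K _ hK h4 hpq => ihb_redDiv 𝔓 K hK h4 p hp hp5 hpq

/-- **contract**: the congruence at one more good prime -/
def MltL1CongAt (p : ℕ) : Prop :=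
  ∀ (W : WeierstrassCurve ℤ), W.Δ ≠ 0 → W.ModRepIsIrreducible p →
    ∀ (M q : ℕ), 0 < M → q.Prime → q ≠ p → ¬ q ∣ M → W.IsGoodPrimeFor q →
    ∀ (f : CuspForm (CongruenceSubgroup.Gamma0 M) 2) (𝔪 : Ideal (integralClosure ℤ ℂ)),
      f.IsNormalizedEigenform → 𝔪.IsMaximal → (p : integralClosure ℤ ℂ) ∈ 𝔪 →
      (∀ ℓ : ℕ, ℓ.Prime → W.IsGoodPrimeFor ℓ → ¬ ℓ ∣ M → ℓ ≠ p → ℓ ≠ q →
        ∃ a : integralClosure ℤ ℂ, (a : ℂ) = ModularFormClass.qCoeff f ℓ ∧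
          a - ((W.apOfModel ℓ : ℤ) : integralClosure ℤ ℂ) ∈ 𝔪) →
      ∃ a : integralClosure ℤ ℂ, (a : ℂ) = ModularFormClass.qCoeff f q ∧
        a - ((W.apOfModel q : ℤ) : integralClosure ℤ ℂ) ∈ 𝔪

/-- **Mazur's principle at an even level, `q ∣ Δ_W`** -/
theorem mltl1_mazur_even_bad (p : ℕ) (hp : p.Prime) (hp2 : p ≠ 2)
    (h1 : MltL1RedDivFam p hp.ne_zero)
    (W : WeierstrassCurve ℤ) (hΔ : W.Δ ≠ 0) (hirr : W.ModRepIsIrreducible p)
    (M q : ℕ) (hMpos : 0 < M) (h2M : 2 ∣ M) (hq : q.Prime) (hq2 : q ≠ 2) (hqp : q ≠ p)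
    (hqM : ¬ q ∣ M) (hqΔ : (q : ℤ) ∣ W.Δ)
    (hunr : MltL1Unram W p q) (hnC : ¬ (p ∣ q - 1 ∧ MltL1FrobScalar W p q))
    (hres : W.IsResiduallyModularOfLevel p (M * q)) :
    W.IsResiduallyModularOfLevel p M := by
  by_contra hnot
  haveI : NeZero M := ⟨hMpos.ne'⟩
  have hpq : p ≠ q := fun h => hqp h.symm
  have hcore : ∀ (A : ValuationSubring Qb) (hA : A.LiesOverPrime q) (φ : GQ)
      (hφ : A.IsFrobeniusAt φ q),
      p ∣ q - 1 ∧ ∃ c : ℤ, ∀ x : Submodule.torsionBy ℤ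
        ((W.map (Int.castRingHom ℚ)).toAffine⁄Qb).Point p, φ • x = c • x := by
    intro A hA φ hφ
    obtain ⟨𝔓, h𝔓P, h𝔓p⟩ : ∃ 𝔓 : FFPlace, 𝔓.P = A ∧ 𝔓.p = q := ⟨⟨A, q, hq, hA⟩, rfl, rfl⟩
    subst h𝔓P
    subst h𝔓p
    have hK : ¬ 𝔓.p ∣ M * 2 := by
      intro h
      rcases (Nat.Prime.dvd_mul hq).mp h with h | h
      · exact hqM h
      · exact hq2 ((Nat.prime_dvd_prime_iff_eq hq Nat.prime_two).mp h)
    have h4 : 4 ∣ M * 2 := by
      obtain ⟨m, rfl⟩ := h2M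
      exact ⟨m, by ring⟩
    exact mltl1_core 𝔓 M 2 hK p hp hp2 hpq W hΔ hirr (h1 𝔓 (M * 2) hK h4 hpq)
      (mltl1_cmp_two 𝔓 M p W (ihbc_cmp 𝔓 M h2M hK p hp hp2 W hqΔ
        (fun f hf => ihbq_fixed_finite_modular 𝔓 (M * 2) hK f hf) (ihbt_involAll 𝔓 M h2M hK)))
      ihb_toricFrob hunr hres hnot φ hφ
  obtain ⟨A, φ, hA, hφ⟩ := Fermat.Agent.Lib.Helper6.exists_frobenius q hq
  exact hnC ⟨(hcore A hA φ hφ).1, fun A' hA' φ' hφ' => (hcore A' hA' φ' hφ').2⟩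

/-- **Mazur's principle at an even level** (general `W`, `q` odd, `p` odd) -/
theorem mltl1_mazur_even (p : ℕ) (hp : p.Prime) (hp2 : p ≠ 2)
    (h1 : MltL1RedDivFam p hp.ne_zero) (hCong : MltL1CongAt p)
    (W : WeierstrassCurve ℤ) (hΔ : W.Δ ≠ 0) (hirr : W.ModRepIsIrreducible p)
    (M q : ℕ) (hMpos : 0 < M) (h2M : 2 ∣ M) (hq : q.Prime) (hq2 : q ≠ 2) (hqp : q ≠ p)
    (hqM : ¬ q ∣ M)
    (hunr : MltL1Unram W p q) (hnC : ¬ (p ∣ q - 1 ∧ MltL1FrobScalar W p q))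
    (hres : W.IsResiduallyModularOfLevel p (M * q)) :
    W.IsResiduallyModularOfLevel p M := by
  by_cases hqΔ : (q : ℤ) ∣ W.Δ
  · exact mltl1_mazur_even_bad p hp hp2 h1 W hΔ hirr M q hMpos h2M hq hq2 hqp hqM hqΔ hunr hnC hres
  -- `q` is a prime of good reduction: pass to the scaled model
  have hq0 : q ≠ 0 := hq.ne_zero
  have hlow := mltl1_mazur_even_bad p hp hp2 h1 (mltl1Scale W q) (mltl1Scale_Δ_ne_zero W hq0 hΔ)
    (mltl1Scale_irr W hq0 p hirr) M q hMpos h2M hq hq2 hqp hqM (mltl1Scale_dvd_Δ W q)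
    (mltl1Scale_unram W hq0 p q hunr)
    (fun h => hnC ⟨h.1, mltl1Scale_frobScalar W hq0 p q h.2⟩)
    (mltl1Scale_resid W hΔ hq0 p (M * q) hres)
  obtain ⟨f, 𝔪, hf, hmax, hpm, hcong⟩ := hlow
  have hcong' : ∀ ℓ : ℕ, ℓ.Prime → W.IsGoodPrimeFor ℓ → ¬ ℓ ∣ M → ℓ ≠ p → ℓ ≠ q →
      ∃ a : integralClosure ℤ ℂ, (a : ℂ) = ModularFormClass.qCoeff f ℓ ∧
        a - ((W.apOfModel ℓ : ℤ) : integralClosure ℤ ℂ) ∈ 𝔪 := by
    intro ℓ hℓ hgood hℓM hℓp hℓq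
    have hg' := mltl1Scale_good_of W hq hℓ hgood hℓq
    have h := hcong ℓ hℓ hg' hℓM hℓp
    rwa [mltl1Scale_ap W hΔ hq0 hℓ hg'] at h
  refine ⟨f, 𝔪, hf, hmax, hpm, fun ℓ hℓ hgood hℓM hℓp => ?_⟩
  by_cases hℓq : ℓ = q
  · subst hℓq
    exact hCong W hΔ hirr M ℓ hMpos hq hqp hqM hqΔ f 𝔪 hf hmax hpm hcong'
  · exact hcong' ℓ hℓ hgood hℓM hℓp hℓq

end Fermat.Agent.MLT
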