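/-
MLT (project S59) / stream L1 (helper3): **Mazur's principle at an even level for a general `W` and EVERY odd
prime `p` (in particular `p = 3` and `p = 5`), with no open input**.

* `mltl1_redDivFam` : (B1)+(B2) for every odd prime `p` (`p ≥ 5`: helper4's `ihb_redDiv`; `p = 3`:
  `Vert3/RedDiv.lean`);
* `mltl1_congAt`    : the contract `MltL1CongAt p` from lead's stream [R] (`mltr_congAt`);
* `mltl1_mazur_even_closed` : `W` any integral model with `Δ ≠ 0` and `W[p]` irreducible, `M` even, `q` odd,
  `q ∤ M`, `q ≠ p` (`p ∣ M` allowed), `W[p]` unramified at `q`, not (`q ≡ 1 mod p` and `Frob_q` scalar on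
  `W[p]`), residually modular of level `M q` ⇒ residually modular of level `M`.
-/
import Mathlib
import Fermat.Agent.Lib.MLT.L1.MazurEven
import Fermat.Agent.Lib.MLT.L1.Vert3.RedDiv
import Fermat.Agent.Lib.MLT.Res.CongAll

set_option autoImplicit false
set_option linter.unusedSectionVars false
set_option linter.unusedVariables false

open WeierstrassCurve Fermat.Agent.Ihara Fermat.Agent.TW

namespace Fermat.Agent.MLT

/-- (B1)+(B2) for every odd prime `p` -/
theorem mltl1_redDivFam (p : ℕ) (hp : p.Prime) (hp2 : p ≠ 2) : MltL1RedDivFam p hp.ne_zero := by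
  by_cases hp5 : 5 ≤ p
  · exact mltl1_redDivFam_five p hp hp5
  · have hp3 : p = 3 := by
      have h2 := hp.two_le
      have hlt : p < 5 := Nat.lt_of_not_le hp5
      interval_cases p
      · exact absurd rfl hp2
      · rfl
      · exact absurd hp (by norm_num)
    subst hp3
    exact mltl1_redDivFam_three

/-- the congruence at one more good prime (lead's [R]) -/
theorem mltl1_congAt (p : ℕ) (hp : p.Prime) : MltL1CongAt p := mltr_congAt hp

/-- **Mazur's principle at an even level**, general `W`, every odd prime `p`, `q` odd -/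
theorem mltl1_mazur_even_closed (p : ℕ) (hp : p.Prime) (hp2 : p ≠ 2)
    (W : WeierstrassCurve ℤ) (hΔ : W.Δ ≠ 0) (hirr : W.ModRepIsIrreducible p)
    (M q : ℕ) (hMpos : 0 < M) (h2M : 2 ∣ M) (hq : q.Prime) (hq2 : q ≠ 2) (hqp : q ≠ p)
    (hqM : ¬ q ∣ M)
    (hunr : MltL1Unram W p q) (hnC : ¬ (p ∣ q - 1 ∧ MltL1FrobScalar W p q))
    (hres : W.IsResiduallyModularOfLevel p (M * q)) :
    W.IsResiduallyModularOfLevel p M :=
  mltl1_mazur_even p hp hp2 (mltl1_redDivFam p hp hp2) (mltl1_congAt p hp) W hΔ hirr M q hMpos h2M hq hq2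
    hqp hqM hunr hnC hres

end Fermat.Agent.MLT
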