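/-
MLT (project S59) / stream L1 (helper3): **`MltL1Mazur p` (= (A)+(B) of the stream [L1]) for every odd prime
`p` from ONE explicit open contract, Mazur's principle at `q = 2`**.

* `MltL1MazurTwo p` : **open contract**: `W` semistable, `W[p]` irreducible and unramified at `2`, `M` odd and
  squarefree: residually modular of level `2 M` ⇒ residually modular of level `M`.
  (`2 ≢ 1 mod p`, so `2` is never a prime of type (C).  Status: the rigid levels prime to `2` are the levels
  `9 ∣ K`; (B1)+(B2) is available there for `p ≥ 5`, what is missing is (B3) for the covers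
  `X₀(9M) → X₀(M)` (degree 12, `3 ∤ M`) and `X₀(3M) → X₀(M)` (cyclic cubic, `3 ∥ M`); for `p = 3` the degree
  of these covers is divisible by `p` and we have NO route when `tr ρ̄(Frob_2) ≡ 0 mod 3`.)
* `mltl1_unram_two` : if `W[p]` is residually modular of an odd level then `W[p]` is unramified at `2`
  (lead's `mltr_dvd_level_of_ramified`);
* **`mltl1_mazur_of_two : MltL1MazurTwo p → MltL1Mazur p`** (`p` odd):
    - `q` odd, `M` even : `mltl1_mazur_even_closed`;
    - `q` odd, `M` odd  : raise to the level `(2 M) q` by oldforms, lower to `2 M` by the even case, then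
      `2 M ⇒ M` by `MltL1MazurTwo`;
    - `q = 2`           : `MltL1MazurTwo`.
-/
import Mathlib
import Fermat.Agent.Lib.MLT.L1.MazurEvenClosed
import Fermat.Agent.Lib.MLT.L1.Defs

set_option autoImplicit false
set_option linter.unusedSectionVars false
set_option linter.unusedVariables false
set_option linter.style.haveILetI false

open WeierstrassCurve Fermat.Agent.Ihara Fermat.Agent.TW

namespace Fermat.Agent.MLT

/-- **open contract: Mazur's principle at `q = 2`** -/
def MltL1MazurTwo (p : ℕ) [Fact p.Prime] : Prop :=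
  ∀ (W : WeierstrassCurve ℤ), W.Δ ≠ 0 → W.IsSemistableModel → W.ModRepIsIrreducible p →
    ∀ (M : ℕ), 0 < M → ¬ 2 ∣ M → Squarefree M → MltL1Unram W p 2 →
      W.IsResiduallyModularOfLevel p (M * 2) → W.IsResiduallyModularOfLevel p M

/-- a prime `q ≠ p` which does not divide a level of `W[p]` is unramified in `W[p]` -/
theorem mltl1_unram_of_not_dvd (p : ℕ) [Fact p.Prime] (hp2 : p ≠ 2)
    (W : WeierstrassCurve ℤ) (hΔ : W.Δ ≠ 0) (hirr : W.ModRepIsIrreducible p)
    (N : ℕ) (hN : 0 < N) (hres : W.IsResiduallyModularOfLevel p N)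
    (q : ℕ) (hq : q.Prime) (hqp : q ≠ p) (hqN : ¬ q ∣ N) : MltL1Unram W p q := by
  haveI : NeZero N := ⟨hN.ne'⟩
  refine mltl1_unram_of_residual W p (mltr_card W p hΔ) (mltr_level W p hΔ) q ?_
  by_contra hram
  apply hqN
  refine mltr_dvd_level_of_ramified W p hΔ hp2 hirr (ZMod p) hres hq hqp (fun h => hram ?_)
  intro A hA σ hσ
  exact (ihr_baseChange_ρ_eq_one_iff (mltrE W p hΔ) (ZMod p) σ).1 (h A hA σ hσ)

/-- **(A)+(B) from Mazur's principle at `q = 2`** -/
theorem mltl1_mazur_of_two (p : ℕ) [Fact p.Prime] (hp2 : p ≠ 2) (h2 : MltL1MazurTwo p) :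
    MltL1Mazur p := by
  have hp : p.Prime := Fact.out
  intro W hΔ hW hirr M q hMpos hsq hq hqp hqM hunr hnC hres
  have hMsq : Squarefree M := hsq.of_mul_left
  by_cases hq2 : q = 2
  · -- `q = 2`
    subst hq2
    exact h2 W hΔ hW hirr M hMpos hqM hMsq hunr hres
  by_cases h2M : 2 ∣ M
  · exact mltl1_mazur_even_closed p hp hp2 W hΔ hirr M q hMpos h2M hq hq2 hqp hqM hunr hnC hres
  -- `M` and `q` odd: pass through the level `2 M`
  have h2Mq : ¬ 2 ∣ M * q := by
    intro h
    rcases (Nat.Prime.dvd_mul Nat.prime_two).mp h with h' | h'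
    · exact h2M h'
    · exact hq2 ((Nat.prime_dvd_prime_iff_eq Nat.prime_two hq).mp h').symm
  have hMqpos : 0 < M * q := Nat.mul_pos hMpos hq.pos
  have hp2' : (2 : ℕ) ≠ p := fun h => hp2 h.symm
  have hunr2 : MltL1Unram W p 2 :=
    mltl1_unram_of_not_dvd p hp2 W hΔ hirr (M * q) hMqpos hres 2 Nat.prime_two hp2' h2Mq
  -- the level `(M * 2) * q` is squarefree
  have hsq2 : Squarefree (M * 2 * q) := by
    have h1 : M * 2 * q = 2 * (M * q) := by ring
    rw [h1]
    refine Nat.squarefree_mul_iff.mpr ⟨?_, Nat.prime_two.prime.squarefree, hsq⟩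
    exact (Nat.Prime.coprime_iff_not_dvd Nat.prime_two).mpr h2Mq
  have hres2 : W.IsResiduallyModularOfLevel p (M * 2 * q) :=
    mltl1_raise W p hsq2.ne_zero ⟨2, by ring⟩ hsq2 hres
  have hqM2 : ¬ q ∣ M * 2 := by
    intro h
    rcases (Nat.Prime.dvd_mul hq).mp h with h' | h'
    · exact hqM h'
    · exact hq2 ((Nat.prime_dvd_prime_iff_eq hq Nat.prime_two).mp h')
  have hlow : W.IsResiduallyModularOfLevel p (M * 2) :=
    mltl1_mazur_even_closed p hp hp2 W hΔ hirr (M * 2) q (Nat.mul_pos hMpos two_pos)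
      (Dvd.intro_left M rfl) hq hq2 hqp hqM2 hunr hnC hres2
  exact h2 W hΔ hW hirr M hMpos h2M hMsq hunr2 hlow

/-- **S38 for `p` from Mazur's principle at `q = 2` and (C)** -/
theorem mltl1_at_of_two (p : ℕ) [Fact p.Prime] (hp2 : p ≠ 2) (h2 : MltL1MazurTwo p)
    (hC : MltL1Ihara p) : MltL1At p :=
  mltl1_main p (mltl1_mazur_of_two p hp2 h2) hC

end Fermat.Agent.MLT
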