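/-
MLT (project S59) / stream L1 (helper3): **the variants of the contracts of [L1] in which `p` is allowed in the
level only when `W` is multiplicative and not finite at `p`** (lead's m54: Top runs [P] first, so when [L1] is
applied, `p ∣ M` implies `p ∤ v_p(Δ_W)`).

* `MltL1NotFiniteAt W p M := p ∣ M → ¬ (p : ℤ) ∣ padicValRat p (W.map (Int.castRingHom ℚ)).Δ`;
* `MltL1At' p`    = `MltL1At p` with the extra hypothesis `MltL1NotFiniteAt W p M`;
* `MltL1Ihara' p` = `MltL1Ihara p` with the extra hypothesis `MltL1NotFiniteAt W p N`;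
* `mltl1_main' : MltL1Mazur p → MltL1Ihara' p → MltL1At' p` (the minimal level `M₀ ∣ M` inherits the hypothesis);
* `mltl1_at'_of_at`, `mltl1_ihara'_of_ihara` : the trivial implications;
* `mltl1_at'_of_two : MltL1MazurTwo p → MltL1Ihara' p → MltL1At' p`.
-/
import Mathlib
import Fermat.Agent.Lib.MLT.L1.MazurAll

set_option autoImplicit false
set_option linter.unusedVariables false

open WeierstrassCurve WeierstrassCurve.Affine WeierstrassCurve.Affine.Point

namespace Fermat.Agent.MLT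

local notation "Qb" => AlgebraicClosure ℚ
local notation "GQ" => (AlgebraicClosure ℚ ≃ₐ[ℚ] AlgebraicClosure ℚ)

/-- `p` divides the level only if `W[p]` is not finite at `p` (`p ∤ v_p(Δ_W)`) -/
def MltL1NotFiniteAt (W : WeierstrassCurve ℤ) (p M : ℕ) : Prop :=
  p ∣ M → ¬ (p : ℤ) ∣ padicValRat p (W.map (Int.castRingHom ℚ)).Δ

theorem MltL1NotFiniteAt.of_dvd {W : WeierstrassCurve ℤ} {p M M' : ℕ} (h : MltL1NotFiniteAt W p M)
    (hM : M' ∣ M) : MltL1NotFiniteAt W p M' :=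
  fun hp => h (hp.trans hM)

/-- the statement of S38 for one prime `p`, with `p` in the level only when `W[p]` is not finite at `p` -/
def MltL1At' (p : ℕ) [Fact p.Prime] : Prop :=
  ∀ (W : WeierstrassCurve ℤ), W.Δ ≠ 0 → W.IsSemistableModel →
    ∀ (hcard₁ : Nat.card (Submodule.torsionBy ℤ
        ((W.map (Int.castRingHom ℚ))⁄(AlgebraicClosure ℚ)).Point p) = p ^ 2)
      (hker : GaloisFactorsThroughFiniteLevel
        (WeierstrassCurve.Affine.Point.galoisRepModuleEnd (K := AlgebraicClosure ℚ) ℚ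
          (W.map (Int.castRingHom ℚ)) p)),
      W.ModRepIsIrreducible p →
      ∀ (M q : ℕ), q.Prime → q ≠ p → q ∣ M → ¬ q ^ 2 ∣ M → Squarefree M →
        MltL1NotFiniteAt W p M →
        ((W.map (Int.castRingHom ℚ)).residualGaloisRepOf p hcard₁ hker).IsUnramifiedAt q →
        W.IsResiduallyModularOfLevel p M → W.IsResiduallyModularOfLevel p (M / q)

/-- **(C)** with `p` in the level only when `W[p]` is not finite at `p` -/
def MltL1Ihara' (p : ℕ) [Fact p.Prime] : Prop :=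
  ∀ (W : WeierstrassCurve ℤ), W.Δ ≠ 0 → W.IsSemistableModel → W.ModRepIsIrreducible p →
    ∀ (N : ℕ), 0 < N → Squarefree N → MltL1NotFiniteAt W p N → W.IsResiduallyModularOfLevel p N →
      (∀ M : ℕ, M ∣ N → M ≠ N → ¬ W.IsResiduallyModularOfLevel p M) →
      (∀ r : ℕ, r.Prime → r ∣ N → r ≠ p → MltL1Unram W p r → MltL1CPrime W p r) →
      ∀ q : ℕ, q.Prime → q ∣ N → q ≠ p → MltL1Unram W p q → False

theorem mltl1_at'_of_at (p : ℕ) [Fact p.Prime] (h : MltL1At p) : MltL1At' p :=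
  fun W hΔ hW hcard₁ hker hirr M q hq hqp hqM hq2 hMsq _ hunr hres =>
    h W hΔ hW hcard₁ hker hirr M q hq hqp hqM hq2 hMsq hunr hres

theorem mltl1_ihara'_of_ihara (p : ℕ) [Fact p.Prime] (h : MltL1Ihara p) : MltL1Ihara' p :=
  fun W hΔ hW hirr N hN hsq _ hres hmin hC q hq hqN hqp hunr =>
    h W hΔ hW hirr N hN hsq hres hmin hC q hq hqN hqp hunr

/-- **S38' for `p` from (A)+(B) and (C)'** -/
theorem mltl1_main' (p : ℕ) [Fact p.Prime] (hAB : MltL1Mazur p) (hC : MltL1Ihara' p) :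
    MltL1At' p := by
  intro W hΔ hW hcard₁ hker hirr M q hq hqp hqM hq2 hMsq hfin hunr hres
  have hMpos : 0 < M := Nat.pos_of_ne_zero hMsq.ne_zero
  have hunrq : MltL1Unram W p q := mltl1_unram_of_residual W p hcard₁ hker q hunr
  obtain ⟨M₀, hM₀M, hM₀, hmin⟩ :=
    mltl1_exists_minimal M hMpos (fun L => W.IsResiduallyModularOfLevel p L) hres
  have hM₀pos : 0 < M₀ := Nat.pos_of_dvd_of_pos hM₀M hMpos
  have hM₀sq : Squarefree M₀ := hMsq.squarefree_of_dvd hM₀M
  have hMq : M / q * q = M := Nat.div_mul_cancel hqM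
  have hMq0 : M / q ≠ 0 := by
    intro h0
    rw [h0, zero_mul] at hMq
    exact hMpos.ne' hMq.symm
  have hMqsq : Squarefree (M / q) := hMsq.squarefree_of_dvd (Dvd.intro _ hMq)
  by_cases hqM₀ : q ∣ M₀
  swap
  · have hdvd : M₀ ∣ M / q := by
      have h1 : M₀ ∣ M / q * q := hMq.symm ▸ hM₀M
      exact (Nat.Coprime.dvd_mul_right
        ((Nat.Prime.coprime_iff_not_dvd hq).mpr hqM₀).symm).mp h1
    exact mltl1_raise W p hMq0 hdvd hMqsq hM₀
  exfalso
  have hCp : ∀ r : ℕ, r.Prime → r ∣ M₀ → r ≠ p → MltL1Unram W p r → MltL1CPrime W p r := by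
    intro r hr hrM₀ hrp hur
    by_contra hnC
    have hnC' : ¬ (p ∣ r - 1 ∧ MltL1FrobScalar W p r) :=
      fun h => hnC ⟨hr, hrp, h.1, hur, h.2⟩
    obtain ⟨M₁, rfl⟩ : ∃ M₁, M₀ = M₁ * r := ⟨M₀ / r, (Nat.div_mul_cancel hrM₀).symm⟩
    have hM₁pos : 0 < M₁ := Nat.pos_of_mul_pos_right hM₀pos
    have hrM₁ : ¬ r ∣ M₁ := by
      intro h
      have h1 : r * r ∣ M₁ * r := Nat.mul_dvd_mul h dvd_rfl
      exact hr.one_lt.ne' (Nat.isUnit_iff.mp (hM₀sq r h1))
    have hlow := hAB W hΔ hW hirr M₁ r hM₁pos hM₀sq hr hrp hrM₁ hur hnC' hM₀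
    refine hmin M₁ (Dvd.intro _ rfl) ?_ hlow
    intro h
    have h1 : M₁ * 1 = M₁ * r := by rw [mul_one]; exact h
    exact hr.one_lt.ne' (Nat.eq_of_mul_eq_mul_left hM₁pos h1).symm
  exact hC W hΔ hW hirr M₀ hM₀pos hM₀sq (hfin.of_dvd hM₀M) hM₀ hmin hCp q hq hqM₀ hqp hunrq

/-- **S38' for `p` from Mazur's principle at `q = 2` and (C)'** -/
theorem mltl1_at'_of_two (p : ℕ) [Fact p.Prime] (hp2 : p ≠ 2) (h2 : MltL1MazurTwo p)
    (hC : MltL1Ihara' p) : MltL1At' p :=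
  mltl1_main' p (mltl1_mazur_of_two p hp2 h2) hC

end Fermat.Agent.MLT
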